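/-
S59lib / EndW / TameEF  (helper6)  — Project I, block `LowerOneBlock`, part END (`Ctx.endpt` for `W`).

THE TAME PACKAGE AT EXPONENT `m = p^k` AT THE ELLIPTIC-FREE LEVELS, FOR EVERY PRIME `p ≠ q` (in particular `p = 3`).

`S43lib.B0.EndBlock.tamePackagePow` (level `M q`, `q ≥ 5`, ANY `M`) needs the tame `(M′)` in `tEis` form, which helper1's
`End/TameEisPow` supplies for `m` coprime to `12` only (descent from the level `36 M q`, division by `12`).  At an
ELLIPTIC-FREE level (`ν₂ M = ν₃ M = 0`) nothing has to be descended: `kapOrd_const_tame_pow` (helper1, arbitrary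
`m ≠ 0`) gives constant node orders, and the constant vectors are `(ℓ + 1)`-eigenvectors of the node matrices
(helper8's `MazurW.tConst_hecke` over `P3.Geom3.nodeHomPair_eq_smul_of_mem_constSub`, arbitrary `m`).

* `resMap_psi_mem_constSub_tame_pow` : the tame `(M′)` in `constSub` form, arbitrary `m ≠ 0`;
* `tameCorePowEF`                    : `TameCore (M * q) q m A`, `Eis = constSub`, `q ∤ m`, `m > 0`;
* **`tamePackagePowEF`**             : `TamePackage (M * q) q (p ^ k) A`, `p ≠ q` ANY prime, `k ≥ 1`.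
-/
import Fermat.Agent.S59lib.MazurW.CoreEF
import Fermat.Agent.S43lib.B0.End.TamePow
import Fermat.Agent.S43lib.B0.End.TameEisPow

set_option autoImplicit false
set_option linter.unusedSectionVars false
set_option linter.style.haveILetI false

noncomputable section

namespace Fermat.Agent.S59lib.EndW

open AlgebraicCurve ModularCurve Fermat.Agent.S18lib Fermat.Agent.S37lib
open Fermat.Agent.LSb Fermat.Agent.LSb.Unit Fermat.Agent.S19lib
open Fermat.Agent.S44lib Fermat.Agent.S44lib.Kap Fermat.Agent.S44lib.Q4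
open Fermat.Agent.S43lib.B0 Fermat.Agent.S43lib.B0.EndBlock Fermat.Agent.S59lib.P3.Geom3
open Fermat.Agent.S59lib.MazurW

local notation "Qb" => AlgebraicClosure ℚ
local notation "GQ" => (AlgebraicClosure ℚ ≃ₐ[ℚ] AlgebraicClosure ℚ)
local notation "Zbar" => integralClosure ℤ ℂ

variable {M q : ℕ} [NeZero M] [NeZero q] [hq : Fact q.Prime] {A : ValuationSubring Qb}

local notation "kA" => IsLocalRing.ResidueField A

variable (hqM : ¬ q ∣ M) (hA : A.LiesOverPrime q)

/-- **THE TAME `(M′)` AT THE ELLIPTIC-FREE LEVELS, constant form, arbitrary torsion order `m ≠ 0`.** -/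
theorem resMap_psi_mem_constSub_tame_pow (h5 : 5 ≤ q) (hν2 : nuTwo M = 0) (hν3 : nuThree M = 0)
    {m : ℕ} [NeZero m]
    {x : JZero (M * q)} (hx : x ∈ tors (M * q) (m : ℤ)) (hfix : ∀ σ ∈ IA A, σ • x = x) :
    resMap (modNod hqM hA) m (psi (modNod hqM hA) m x) ∈ constSub (modNod hqM hA).s m := by
  obtain ⟨h1, h2⟩ := kapOrd_const_tame_pow hqM hA h5 hν2 hν3 hx hfix
  obtain ⟨t₁, ht₁⟩ := Fermat.Agent.S44lib.Lvl.exists_const_of_forall_eq _ h1
  obtain ⟨t₂, ht₂⟩ := Fermat.Agent.S44lib.Lvl.exists_const_of_forall_eq _ h2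
  have hcast : ∀ a : ZMod m, (((a.val : ℕ) : ℤ) : ZMod m) = a := fun a => by
    rw [Int.cast_natCast, ZMod.natCast_zmod_val]
  haveI := modHpdK hqM hA
  refine mem_constSub.2 ⟨⟨((t₁.val : ℕ) : ℤ), fun c => ?_⟩, ⟨((t₂.val : ℕ) : ℤ), fun c => ?_⟩⟩
  · rw [hcast]
    exact ht₁ c
  · rw [hcast]
    exact ht₂ c

/-- **the tame core at an elliptic-free level `M q`, exponent `m`** (`q ≥ 5`, `q ∤ M`, `ν₂ M = ν₃ M = 0`,
`q ∤ m`, `m > 0`), `Eis` = the constant vectors. -/
def tameCorePowEF (h5 : 5 ≤ q) (hν2 : nuTwo M = 0) (hν3 : nuThree M = 0) (m : ℕ) (hm0 : 0 < m)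
    (hqm : ¬ q ∣ m) : TameCore (M * q) q m A where
  Ω := TOm A M m
  R := TRes hqM hA m
  Ψ := tPsi hqM hA m
  res := tRes hqM hA m
  TΩ := tTΩ A M m
  TR := tTR hqM hA m
  Eis := constSub (modNod hqM hA).s m
  K := tK hqM hA m
  w := wqJHom hqM
  Ψ_add := tPsi_add hqM hA m
  Ψ_hecke := tPsi_hecke hqM hA m
  res_hecke := tRes_hecke hqM hA m (modCtx hqM hA h5)
  K_le := tK_le hqM hA m
  mem_K := mem_tK hqM hA m (modCtx hqM hA h5) hm0
  p_smul_R := fun ρ => m_smul_res m ρ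
  mono := fun _ hx hfix =>
    haveI : NeZero m := ⟨hm0.ne'⟩
    resMap_psi_mem_constSub_tame_pow hqM hA h5 hν2 hν3 hx hfix
  eis := fun ℓ hℓN _ ρ hρ => tConst_hecke hqM hA m (by omega)
    (fun c => S36lib.Count.ord_H₂_modX_five_le h5 hqM hA hν2 hν3 (modD1_isGaussOne hqM hA) c)
    ℓ hℓN ρ hρ
  w_galois := wqJHom_galois hqM
  w_invol := wqJHom_wqJHom hqM
  frobK := tFrobK hqM hA m (modCtx hqM hA h5) hqm

/-- **the tame package at an elliptic-free level `M q`, exponent `p^k`** (`q ≥ 5`, `p ≠ q` ANY prime, `k ≥ 1`) -/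
def tamePackagePowEF (h5 : 5 ≤ q) (hν2 : nuTwo M = 0) (hν3 : nuThree M = 0) (p k : ℕ)
    [hpf : Fact p.Prime] (hk : 0 < k) (hpq : p ≠ q) : TamePackage (M * q) q (p ^ k) A :=
  (tameCorePowEF hqM hA h5 hν2 hν3 (p ^ k) (pow_pos hpf.out.pos k)
    (fun h => hpq ((Nat.prime_dvd_prime_iff_eq hq.out hpf.out).1
      (hq.out.dvd_of_dvd_pow h)).symm)).toPackage
    (fun x hx hΨ hres a S hS _ heig =>
      tameOld_pow hqM hA h5 p k hk hpq x hx hΨ hres a S
        (fun ℓ hℓ => ⟨(hS ℓ hℓ).1, (hS ℓ hℓ).2.1⟩) heig)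

end Fermat.Agent.S59lib.EndW

end
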